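import Fermat.Agent.CFT.PT.Glue

/-!
# Links for locally trivial cocycles
-/

set_option autoImplicit false
set_option linter.unusedSectionVars false
set_option linter.style.haveILetI false

noncomputable section

namespace Fermat.Agent.CFT.PT

open ExtCitation Fermat.Agent.Arith IntermediateField Fermat.Agent.CFT.Local Fermat.Agent.CFT.Idele
open Fermat.Agent.CFT.Duality groupCohomology

local instance factPrimeLinkC (q : Nat.Primes) : Fact (q : ℕ).Prime := ⟨q.2⟩

variable {K L : IntermediateField ℚ QBar} [FiniteDimensional ℚ K] [Normal ℚ K]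
  [FiniteDimensional ℚ L] [Normal ℚ L] {le : K ≤ L}
  {A ι : Type*} [AddCommGroup A] [DistribMulAction (K ≃ₐ[ℚ] K) A] [Fintype ι] {p : ℕ}
  [hp : Fact p.Prime] {ε : Lat (K ≃ₐ[ℚ] K) ι →+ A} (hε : Presentation p ε) {S : Finset Nat.Primes}

theorem nsmul_apply_eq_zero {X : Type*} [AddCommGroup X] {G : Type*} [Group G] {π : G →* (K ≃ₐ[ℚ] K)}
    (hA : ∀ a : A, p • a = 0) (φ : TwHom π A X) (a : A) : p • φ a = 0 := by
  rw [← map_nsmul, hA, map_zero]

include hε

/-- A locally trivial cocycle is, after pulling back to the lattice, a coboundary in the units. -/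
theorem exists_units_cochain
    (hH1 : ∀ P : Subgroup (L ≃ₐ[ℚ] L), IsPGroup p P → H1Zero P (C L))
    (c : (L ≃ₐ[ℚ] L) × (L ≃ₐ[ℚ] L) → TwHom (levelRes le) A (Additive Lˣ)) (hc : IsCocycle₂ c)
    (hloc : ∀ q, LocTriv S c q) :
    ∃ e : (L ≃ₐ[ℚ] L) → TwHom (levelRes le) (Lat (K ≃ₐ[ℚ] K) ι) (Additive Lˣ),
      ∀ g h z, dd e g h z = c (g, h) (ε z) := by
  classical
  let cJ : Nat.Primes → (L ≃ₐ[ℚ] L) × (L ≃ₐ[ℚ] L) →
      TwHom (levelRes le) (Lat (K ≃ₐ[ℚ] K) ι) (J L) := fun q x =>
    TwHom.of (((partAt {q}).comp (diag L)).comp ((c x).toHom.comp ε))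
  have hcJ : ∀ q, IsCocycle₂ (cJ q) := fun q g h j => TwHom.ext fun z => by
    have e := congr_arg (fun φ : TwHom (levelRes le) A (Additive Lˣ) =>
      partAt {q} (diag L (φ (ε z)))) (hc g h j)
    simp only [TwHom.add_apply, TwHom.smul_apply, map_add, diag_smul, partAt_smul] at e
    simp only [cJ, TwHom.add_apply, TwHom.smul_apply, TwHom.of_apply, AddMonoidHom.comp_apply,
      TwHom.toHom_apply, hε.map_smul]
    exact e
  have htors : ∀ q x z, p • cJ q x z = 0 := fun q x z => by
    simp only [cJ, TwHom.of_apply, AddMonoidHom.comp_apply, TwHom.toHom_apply]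
    rw [← map_nsmul, ← map_nsmul, nsmul_apply_eq_zero hε.killed, map_zero, map_zero]
  have hq : ∀ q, ∃ t : (L ≃ₐ[ℚ] L) → TwHom (levelRes le) (Lat (K ≃ₐ[ℚ] K) ι) (J L),
      (∀ g z, t g z ∈ suppV L q (S : Set Nat.Primes)) ∧ ∀ g h z, dd t g h z = cJ q (g, h) z := by
    intro q
    obtain ⟨L', hfd, hn, h', hur, t, hts, htc⟩ := hloc q
    letI := hfd; letI := hn
    refine exists_descend_cochain le h' (q := q) (S := (S : Set Nat.Primes)) ?_ (cJ q) (hcJ q)
      (fun x z => ⟨partAt_mem_supportedIn {q} _,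
        mem_unitsOutside_of_torsion hp.out.ne_zero (htors q x z) _⟩)
      (fun g => TwHom.pre ε (t g)) (fun g z => ⟨hts g (ε z), ?_⟩) fun g h z => ?_
    · by_cases hqS : q ∈ S
      · exact Or.inl (by simpa using hqS)
      · exact Or.inr (hur hqS).1
    · exact mem_unitsOutside_of_torsion hp.out.ne_zero
        (nsmul_apply_eq_zero hε.killed (t g) (ε z)) _
    · have e := htc g h (ε z)
      simp only [dd, TwHom.add_apply, TwHom.sub_apply, TwHom.smul_apply, TwHom.pre_apply,
        hε.map_smul] at e ⊢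
      rw [e]
      simp only [cJ, TwHom.of_apply, AddMonoidHom.comp_apply, TwHom.toHom_apply, partAt_inclJ]
  choose tq htqV htqc using hq
  let t : (L ≃ₐ[ℚ] L) → TwHom (levelRes le) (Lat (K ≃ₐ[ℚ] K) ι) (J L) := fun g =>
    TwHom.of (AddMonoidHom.mk' (fun z => glueJ S (fun q => tq q g z) fun q => htqV q g z)
      fun z z' => J_ext_part fun q => by
        rw [map_add (partAt {q}), partAt_glueJ, partAt_glueJ, partAt_glueJ, map_add (tq q g)])
  have hpt : ∀ q g z, partAt {q} (t g z) = tq q g z := fun q g z =>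
    partAt_glueJ S (fun q => tq q g z) (fun q => htqV q g z) q
  have hdt : ∀ g h z, dd t g h z = diag L (c (g, h) (ε z)) := fun g h z => by
    refine J_ext_part fun q => ?_
    simp only [dd, TwHom.add_apply, TwHom.sub_apply, TwHom.smul_apply, map_add, map_sub,
      partAt_smul, hpt]
    have e := htqc q g h z
    simp only [dd, TwHom.add_apply, TwHom.sub_apply, TwHom.smul_apply] at e
    exact e
  let u : (L ≃ₐ[ℚ] L) → TwHom (levelRes le) (Lat (K ≃ₐ[ℚ] K) ι) (C L) :=
    fun g => TwHom.map (proj L) (t g)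
  have hu : IsCocycle₁ u := fun g h => TwHom.ext fun z => by
    have e := congrArg (proj L) (hdt g h z)
    rw [proj_diag] at e
    simp only [dd, TwHom.add_apply, TwHom.sub_apply, TwHom.smul_apply, map_add, map_sub,
      proj_smul] at e
    simp only [u, TwHom.add_apply, TwHom.smul_apply, TwHom.map_apply]
    rw [eq_comm, ← sub_eq_zero, ← e]
    abel
  obtain ⟨Q⟩ := (inferInstance : Nonempty (Sylow p (levelRes le).ker))
  set m := (Q : Subgroup (levelRes le).ker).index
  have hQ : H1Zero (Q : Subgroup (levelRes le).ker) (C L) :=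
    (hH1 _ (Q.isPGroup'.map _)).of_equiv ((Q : Subgroup (levelRes le).ker).equivMapOfInjective
      (levelRes le).ker.subtype Subtype.coe_injective) fun _ _ => rfl
  have hmu : IsCocycle₁ (m • u) := fun g h => by
    simp only [Pi.smul_apply, hu g h, smul_add, smul_comm g m]
  obtain ⟨x, hx⟩ := isCoboundary₁_twHom (m • u) hmu fun i r => by
    have hcn := PT.isCocycle₁_component hu (Lat.e i r)
    obtain ⟨y, hy⟩ := index_nsmul_isCoboundary₁ (Q : Subgroup (levelRes le).ker) _ hcn
      (hQ _ fun a b => hcn (a : (levelRes le).ker) (b : (levelRes le).ker))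
    exact ⟨y, fun n => by
      rw [hy n]
      simp only [Pi.smul_apply, TwHom.nsmul_apply]
      rfl⟩
  choose xr hxr using fun (i : ι) (r : K ≃ₐ[ℚ] K) => proj_surjective L (x (Lat.e i r))
  let xJ : TwHom (levelRes le) (Lat (K ≃ₐ[ℚ] K) ι) (J L) := TwHom.of (Lat.ofBasis xr)
  have hxJ : ∀ z, proj L (xJ z) = x z := by
    have e : (proj L).comp xJ.toHom = x.toHom := Lat.hom_ext fun i r => by
      show proj L (xJ (Lat.e i r)) = _
      simp only [xJ, TwHom.of_apply, Lat.ofBasis_e, hxr, TwHom.toHom_apply]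
    exact fun z => DFunLike.congr_fun e z
  have hker : ∀ g z, ∃ a : Additive Lˣ,
      diag L a = m • t g z - (g • xJ - xJ : TwHom (levelRes le) (Lat (K ≃ₐ[ℚ] K) ι) (J L)) z := by
    intro g z
    have e0 : proj L (m • t g z -
        (g • xJ - xJ : TwHom (levelRes le) (Lat (K ≃ₐ[ℚ] K) ι) (J L)) z) = 0 := by
      have e := congr_arg (fun φ : TwHom (levelRes le) (Lat (K ≃ₐ[ℚ] K) ι) (C L) => φ z) (hx g)
      simp only [TwHom.sub_apply, TwHom.smul_apply, Pi.smul_apply, TwHom.nsmul_apply, u,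
        TwHom.map_apply] at e
      simp only [map_sub, map_nsmul, TwHom.sub_apply, TwHom.smul_apply, proj_smul, hxJ, e, sub_self]
    obtain ⟨a, ha⟩ := (proj_eq_zero_iff L).1 e0
    exact ⟨Additive.ofMul a, congrArg Additive.ofMul ha⟩
  choose e₀ he₀ using hker
  let e₀' : (L ≃ₐ[ℚ] L) → TwHom (levelRes le) (Lat (K ≃ₐ[ℚ] K) ι) (Additive Lˣ) := fun g =>
    TwHom.of (AddMonoidHom.mk' (e₀ g) fun z z' => diag_injective L (by
      rw [map_add (diag L), he₀, he₀, he₀, map_add, map_add, smul_add]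
      abel))
  have hde₀ : ∀ g h z, dd e₀' g h z = m • c (g, h) (ε z) := fun g h z => diag_injective L (by
    rw [map_nsmul, ← hdt]
    simp only [dd, TwHom.add_apply, TwHom.sub_apply, TwHom.smul_apply, map_add, map_sub, diag_smul,
      e₀', TwHom.of_apply, AddMonoidHom.mk'_apply, he₀, smul_sub, mul_smul,
      smul_comm g m, smul_add]
    abel)
  have hcop : m.Coprime p := (hp.out.coprime_iff_not_dvd.mpr Q.not_dvd_index).symm
  obtain ⟨a, b, hab⟩ : IsCoprime (m : ℤ) (p : ℤ) :=
    Int.isCoprime_iff_nat_coprime.mpr (by simpa using hcop)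
  refine ⟨fun g => a • e₀' g, fun g h z => ?_⟩
  have hkill : (p : ℤ) • c (g, h) (ε z) = 0 := by
    rw [natCast_zsmul, nsmul_apply_eq_zero hε.killed]
  calc dd (fun g => a • e₀' g) g h z = a • dd e₀' g h z := by
        simp only [dd, TwHom.add_apply, TwHom.sub_apply, TwHom.smul_apply, TwHom.zsmul_apply,
          smul_comm g a, zsmul_add, zsmul_sub]
    _ = (a * m) • c (g, h) (ε z) := by rw [hde₀, ← natCast_zsmul _ m, smul_smul]
    _ = _ := by
        conv_rhs => rw [← one_smul ℤ (c (g, h) (ε z)), ← hab, add_zsmul, mul_zsmul _ b, hkill,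
          zsmul_zero, add_zero]

/-- Every locally trivial cocycle is linked to an equivariant map into classes. -/
theorem exists_linked (hH1 : ∀ P : Subgroup (L ≃ₐ[ℚ] L), IsPGroup p P → H1Zero P (C L))
    (c : (L ≃ₐ[ℚ] L) × (L ≃ₐ[ℚ] L) → TwHom (levelRes le) A (Additive Lˣ)) (hc : IsCocycle₂ c)
    (hloc : ∀ q, LocTriv S c q) (cQ : GQ × GQ → DualMod K A)
    (hcQ : ∀ g h, cQ (g, h) = toQHom (c (res L g, res L h))) :
    ∃ (f : equivHom (C := C K) hε.isStable_ker) (b : ε.ker →+ J L)
      (e : (L ≃ₐ[ℚ] L) → TwHom (levelRes le) (Lat (K ≃ₐ[ℚ] K) ι) (Additive Lˣ)),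
      LinkAt hε S le cQ f.1 b e := by
  classical
  obtain ⟨e, he⟩ := exists_units_cochain hε hH1 c hc hloc
  have he1 : ∀ s : ε.ker, e 1 s = 0 := fun s => by
    have h := he 1 1 s
    simpa [dd, AddMonoidHom.mem_ker.1 s.2] using h
  have hcof : ∀ (g : L ≃ₐ[ℚ] L) (i : ι) (x : K ≃ₐ[ℚ] K), ∃ T : Finset Nat.Primes,
      ∀ q ∉ T, ∀ σ, val (diag L (e g (Lat.e i x))).toMul q σ ∈ unitGroup (E L q) :=
    fun g i x => val_mem_unitGroup_cofinite _
  choose Tf hTf using hcof
  set T₁ : Finset Nat.Primes :=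
    S ∪ Finset.univ.biUnion fun gix : (L ≃ₐ[ℚ] L) × ι × (K ≃ₐ[ℚ] K) => Tf gix.1 gix.2.1 gix.2.2
  have hunit : ∀ g z, diag L (e g z) ∈ unitsOutside L (T₁ : Set Nat.Primes) := fun g z => by
    rw [Lat.eq_sum z, map_sum (e g), map_sum (diag L)]
    refine sum_mem fun r _ => ?_
    rw [map_zsmul, map_zsmul]
    refine zsmul_mem (fun q hq γ => ?_) _
    have hq' : q ∉ Tf g r.1 r.2 := fun h => hq (Finset.mem_union_right _
      (Finset.mem_biUnion.2 ⟨(g, r.1, r.2), Finset.mem_univ _, h⟩))
    rw [← norm_val_eq]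
    exact (mem_unitGroup _).1 (hTf g r.1 r.2 q hq' _)
  have hq : ∀ q, ∃ b : ε.ker →+ J L, (∀ s, b s ∈ suppV L q (T₁ : Set Nat.Primes)) ∧
      (∀ x, b (mulP hε.smul_mem x) ∈ divOrd L p (S : Set Nat.Primes)) ∧
      ∀ g s, g • b (smulS hε.isStable_ker (levelRes le g⁻¹) s) - b s =
        partAt {q} (diag L (e g s)) := by
    intro q
    obtain ⟨L', hfd, hn, h', hur, t, hts, htc⟩ := hloc q
    letI := hfd; letI := hn
    let w : (L' ≃ₐ[ℚ] L') → TwHom (levelRes (le.trans h')) (Lat (K ≃ₐ[ℚ] K) ι) (J L') := fun g =>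
      TwHom.of (((inclJ h').comp ((partAt {q}).comp (diag L))).comp (e (levelRes h' g)).toHom) -
        TwHom.pre ε (t g)
    have hw : IsCocycle₁ w := fun g h => TwHom.ext fun z => by
      have e1 := congrArg (fun a : Additive Lˣ => inclJ h' (partAt {q} (diag L a)))
        (he (levelRes h' g) (levelRes h' h) z)
      have e2 := htc g h (ε z)
      simp only [dd, TwHom.add_apply, TwHom.sub_apply, TwHom.smul_apply, map_add, map_sub,
        diag_smul, partAt_smul, ← smul_inclJ, ← map_mul, ← map_inv (levelRes h'),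
        levelRes_levelRes] at e1 e2
      simp only [partAt_inclJ, ← e1] at e2
      simp only [w, TwHom.add_apply, TwHom.sub_apply, TwHom.smul_apply, TwHom.of_apply,
        AddMonoidHom.comp_apply, TwHom.toHom_apply, TwHom.pre_apply, smul_sub, hε.map_smul]
      rw [← sub_eq_zero] at e2 ⊢
      rw [← e2]
      abel
    have hwV : ∀ g z, w g z ∈ suppV L' q (T₁ : Set Nat.Primes) := fun g z =>
      sub_mem ((inclJ_mem_suppV_iff h').2 (partAt_mem_suppV (hunit _ z)))
        ⟨hts g (ε z), mem_unitsOutside_of_torsion hp.out.ne_zero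
          (nsmul_apply_eq_zero hε.killed (t g) (ε z)) _⟩
    have hq1 : q ∈ (T₁ : Set Nat.Primes) ∨ inertia (E L' q) = ⊥ := by
      by_cases hqS : q ∈ S
      · exact Or.inl (Finset.mem_coe.2 (Finset.mem_union_left _ hqS))
      · exact Or.inr (hur hqS).1
    obtain ⟨y, hyV, hy⟩ := exists_twHom_of_cocycle (suppV L' q (T₁ : Set Nat.Primes))
      (fun g _ hx => smul_mem_suppV g hx) w hw hwV fun i r =>
        exists_of_cocycle_suppV hq1 (levelRes (le.trans h')).ker
          (fun n => w (n : L' ≃ₐ[ℚ] L') (Lat.e i r)) (PT.isCocycle₁_component hw (Lat.e i r))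
          fun n => hwV _ _
    have hy' : ∀ g (s : ε.ker), g • y (smulS hε.isStable_ker (levelRes (le.trans h') g⁻¹) s) -
        y s = inclJ h' (partAt {q} (diag L (e (levelRes h' g) s))) := fun g s => by
      have e1 := congr_arg (fun φ : TwHom (levelRes (le.trans h')) (Lat (K ≃ₐ[ℚ] K) ι) (J L') =>
        φ (s : Lat (K ≃ₐ[ℚ] K) ι)) (hy g)
      simp only [w, TwHom.sub_apply, TwHom.smul_apply, TwHom.of_apply, AddMonoidHom.comp_apply,
        TwHom.toHom_apply, TwHom.pre_apply, AddMonoidHom.mem_ker.1 s.2, map_zero, sub_zero] at e1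
      exact e1
    have hfix : ∀ s : ε.ker, ∀ n ∈ (levelRes h').ker, n • y s = y s := fun s n hn => by
      have e1 := hy' n s
      rw [← levelRes_levelRes le h', map_inv, MonoidHom.mem_ker.1 hn, inv_one, map_one, he1,
        map_zero, map_zero, map_zero, sub_eq_zero] at e1
      rwa [smulS_one] at e1
    choose b hb using fun s => exists_inclJ_eq h' (hfix s)
    refine ⟨AddMonoidHom.mk' b fun s s' => inclJ_injective h' ?_, fun s => ?_, fun x => ?_,
      fun g s => inclJ_injective h' ?_⟩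
    · rw [map_add (inclJ h'), hb, hb, hb, AddSubgroup.coe_add, map_add y]
    · exact (inclJ_mem_suppV_iff h').1 (by rw [AddMonoidHom.mk'_apply, hb]; exact hyV _)
    · rw [AddMonoidHom.mk'_apply, ← inclJ_mem_divOrd_iff h', hb, coe_mulP, map_nsmul]
      intro q' hq' γ
      rcases eq_or_ne q' q with rfl | hne
      · obtain ⟨n, hn⟩ := (hur (by simpa using hq')).2 γ (y x)
        exact ⟨n, by rw [normAt_nsmul, hn, mul_comm, zpow_mul, zpow_natCast]⟩
      · exact ⟨0, by rw [normAt_nsmul, normAt_of_supported (hyV x).1 (by simpa using hne),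
          one_pow, mul_zero, zpow_zero]⟩
    · obtain ⟨g, rfl⟩ := levelRes_surjective h' g
      simp only [AddMonoidHom.mk'_apply]
      rw [map_sub (inclJ h'), ← smul_inclJ, hb, hb, ← hy', ← map_inv (levelRes h'),
        levelRes_levelRes]
  choose bq hbV hbgood hbco using hq
  let b : ε.ker →+ J L := AddMonoidHom.mk' (fun s => glueJ T₁ (fun q => bq q s) fun q => hbV q s)
    fun s s' => J_ext_part fun q => by
      rw [map_add (partAt {q}), partAt_glueJ, partAt_glueJ, partAt_glueJ, map_add (bq q)]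
  have hb : ∀ q s, partAt {q} (b s) = bq q s := fun q s =>
    partAt_glueJ T₁ (fun q => bq q s) (fun q => hbV q s) q
  have hbco' : ∀ g s, g • b (smulS hε.isStable_ker (levelRes le g⁻¹) s) - b s = diag L (e g s) :=
    fun g s => J_ext_part fun q => by rw [map_sub, partAt_smul, hb, hb, hbco]
  have hproj : ∀ g s, g • proj L (b (smulS hε.isStable_ker (levelRes le g⁻¹) s)) = proj L (b s) :=
    fun g s => by
      rw [← proj_smul, ← sub_eq_zero, ← map_sub, hbco']
      exact proj_diag _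
  choose f hf using fun s => exists_inclC_eq le (c := proj L (b s)) fun n hn => by
    have e1 := hproj n s
    rwa [map_inv, MonoidHom.mem_ker.1 hn, inv_one, smulS_one] at e1
  let f' : ε.ker →+ C K := AddMonoidHom.mk' f fun s s' => inclC_injective le (by
    rw [map_add (inclC le), hf, hf, hf, map_add b, map_add (proj L)])
  refine ⟨⟨f', fun σ s => inclC_injective le ?_⟩, b, e, fun s => (hf s).symm, hbco', fun x => ?_,
    fun g h => TwHom.ext fun z => ?_⟩
  · obtain ⟨g, rfl⟩ := levelRes_surjective le σ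
    show inclC le (f (smulS hε.isStable_ker (levelRes le g) s)) =
      inclC le (levelRes le g • f s)
    rw [hf, ← smul_inclC, hf,
      ← hproj g (smulS hε.isStable_ker (levelRes le g) s), smulS_smulS, map_inv, inv_mul_cancel,
      smulS_one]
  · intro q hq γ
    obtain ⟨n, hn⟩ := hbgood q x q hq γ
    refine ⟨n, ?_⟩
    rw [← hn, ← hb, ← norm_val_eq, ← norm_val_eq, val_partAt]
    simp
  · rw [TwHom.pre_apply, hcQ, toQHom_apply, toQHom_apply, he]

end Fermat.Agent.CFT.PT
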