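import Fermat.Agent.CFT.Coh.Basic

/-!
# Semilocal modules in degree two

For a module coinduced from a decomposition group (`SemiProj`), a local trivialisation of a
`2`-cocycle gives a global one (`SemiProj.exists_h2`).
-/

set_option autoImplicit false
set_option linter.unusedSectionVars false
set_option linter.style.haveILetI false

noncomputable section

namespace Fermat.Agent.CFT.PT

open groupCohomology

variable {G Z : Type*} [Group G] [AddCommGroup Z] [DistribMulAction G Z]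

/-- `Zs` is coinduced from its image under `P`, a projection equivariant for `D`. -/
structure SemiProj (D : Subgroup G) (P : Z →+ Z) (Zs : AddSubgroup Z) : Prop where
  mem : ∀ z, P z ∈ Zs
  smul_mem : ∀ (g : G), ∀ z ∈ Zs, g • z ∈ Zs
  comm : ∀ d ∈ D, ∀ z, P (d • z) = d • P z
  idem : ∀ z, P (P z) = P z
  off : ∀ g ∉ D, ∀ z, P (g • P z) = 0
  ext : ∀ z ∈ Zs, (∀ g : G, P (g • z) = 0) → z = 0

variable {D : Subgroup G} {P : Z →+ Z} {Zs : AddSubgroup Z}

/-- Equivariant families come from elements. -/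
theorem SemiProj.exists_family (hP : SemiProj D P Zs) [Fintype (G ⧸ D)] (T : G → Z)
    (hT : ∀ g, P (T g) = T g) (hequi : ∀ d ∈ D, ∀ g, T (d * g) = d • T g) :
    ∃ z ∈ Zs, ∀ g : G, P (g • z) = T g := by
  refine ⟨∑ r : G ⧸ D, r.out • T r.out⁻¹, sum_mem fun r _ => hP.smul_mem _ _ ?_, fun g => ?_⟩
  · rw [← hT]; exact hP.mem _
  rw [Finset.smul_sum, map_sum, Finset.sum_eq_single (QuotientGroup.mk g⁻¹)]
  · obtain ⟨⟨d, hd⟩, e⟩ := QuotientGroup.mk_out_eq_mul D g⁻¹
    rw [e, smul_smul, mul_inv_cancel_left, hP.comm d hd, hT, ← hequi d hd, mul_inv_rev, inv_inv,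
      mul_inv_cancel_left]
  · intro r _ hr
    rw [smul_smul, ← hT]
    refine hP.off _ (fun hm => hr ?_) _
    rw [← QuotientGroup.out_eq' r, QuotientGroup.eq]
    have := inv_mem hm
    rwa [mul_inv_rev] at this
  · exact fun h => absurd (Finset.mem_univ _) h

/-- A local trivialisation of a semilocal `2`-cocycle gives a global one. -/
theorem SemiProj.exists_h2 (hP : SemiProj D P Zs) [Fintype (G ⧸ D)] (c : G × G → Z)
    (hc : IsCocycle₂ c) (hcs : ∀ x, c x ∈ Zs) (m : D → Z) (hm : ∀ d, P (m d) = m d)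
    (hmc : ∀ a b : D, (a : G) • m b - m (a * b) + m a = P (c ((a : G), (b : G)))) :
    ∃ t : G → Z, (∀ g, t g ∈ Zs) ∧ ∀ g h, g • t h - t (g * h) + t g = c (g, h) := by
  classical
  let w : G → G → Z := fun σ g => P (c (σ, g))
  have hw : ∀ σ g h, P (σ • c (g, h)) = w (σ * g) h - w σ (g * h) + w σ g := fun σ g h => by
    rw [show σ • c (g, h) = c (σ * g, h) + c (σ, g) - c (σ, g * h) from
      eq_sub_of_add_eq (hc σ g h).symm, map_sub, map_add]
    simp only [w]
    abel
  let ρ : G → G := fun σ => ((QuotientGroup.mk σ⁻¹ : G ⧸ D)).out⁻¹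
  have hδ : ∀ σ, σ * (ρ σ)⁻¹ ∈ D := fun σ => by
    obtain ⟨d, e⟩ := QuotientGroup.mk_out_eq_mul D σ⁻¹
    simp only [ρ, inv_inv, e, mul_inv_cancel_left]
    exact d.2
  have hρ : ∀ d ∈ D, ∀ σ, ρ (d * σ) = ρ σ := fun d hd σ => by
    simp only [ρ]
    congr 2
    rw [QuotientGroup.eq]
    simpa [mul_assoc] using hd
  let δ : G → D := fun σ => ⟨σ * (ρ σ)⁻¹, hδ σ⟩
  have hσ : ∀ σ, (δ σ : G) * ρ σ = σ := fun σ => inv_mul_cancel_right σ (ρ σ)
  let η : G → Z := fun σ => m (δ σ) - w (δ σ) (ρ σ)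
  have hη : ∀ (d : D) σ, η (d * σ) = (d : G) • η σ - w d σ + m d := fun d σ => by
    have e1 : δ (d * σ) = d * δ σ := Subtype.ext (by
      simp only [δ, hρ d d.2, Subgroup.coe_mul, mul_assoc])
    have e2 := hmc d (δ σ)
    have e3 := hw d (δ σ) (ρ σ)
    rw [hP.comm d d.2, hσ] at e3
    simp only [η, e1, hρ d d.2, Subgroup.coe_mul, smul_sub]
    simp only [w] at e3 ⊢
    rw [e3, ← sub_eq_zero]
    rw [← sub_eq_zero] at e2
    rw [← neg_eq_zero, ← e2]
    abel
  let T : G → G → Z := fun g σ => w σ g + η (σ * g) - η σ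
  have hPw : ∀ σ g, P (w σ g) = w σ g := fun σ g => hP.idem _
  have hPη : ∀ σ, P (η σ) = η σ := fun σ => by simp only [η, map_sub, hm, hPw]
  have hT : ∀ g, ∃ z ∈ Zs, ∀ σ : G, P (σ • z) = T g σ := fun g =>
    hP.exists_family (T g) (fun σ => by simp only [T, map_add, map_sub, hPw, hPη])
      fun d hd σ => by
        have e1 := hη ⟨d, hd⟩ (σ * g)
        have e2 := hη ⟨d, hd⟩ σ
        have e3 := hw d σ g
        rw [hP.comm d hd] at e3
        simp only [T, mul_assoc, smul_add, smul_sub, e1, e2]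
        simp only [w] at e3 ⊢
        rw [e3]
        abel
  choose t htmem ht using hT
  refine ⟨t, htmem, fun g h => sub_eq_zero.1 (hP.ext _ ?_ fun σ => ?_)⟩
  · exact sub_mem (add_mem (sub_mem (hP.smul_mem _ _ (htmem _)) (htmem _)) (htmem _)) (hcs _)
  · simp only [smul_sub, smul_add, map_sub, map_add, smul_smul, ht, hw, T, mul_assoc]
    abel

end Fermat.Agent.CFT.PT
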